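import Mathlib
import Fermat.Agent.Lib.FrobDensity.LogDensity

section MergeWrap_Lib_FrobDensity_EulerSieve -- from Lib/FrobDensity/EulerSieve.lean

/-!
# Euler product over the primes of a Dedekind domain (sieve form)

For a Dedekind domain `R` and a nonnegative multiplicative summable weight `w` on ideals with
`w ⊥ = 0`, `w ⊤ = 1`, `w 𝔭 < 1`, the product of `(1 - w 𝔭)⁻¹` over the height one primes converges
to `∑' I, w I`.  (helper59, foundation F2'.)
-/

namespace Fermat.Agent.FrobDensity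

open IsDedekindDomain Filter Topology

section Sieve

set_option linter.unusedSectionVars false

variable {R : Type*} [CommRing R] [IsDedekindDomain R]

/-- The nonzero ideals not divisible by any prime of `T`. -/
def sieveSet (T : Finset (HeightOneSpectrum R)) : Set (Ideal R) :=
  {I | I ≠ ⊥ ∧ ∀ 𝔭 ∈ T, ¬ I ≤ 𝔭.asIdeal}

lemma top_mem_sieveSet (T : Finset (HeightOneSpectrum R)) : (⊤ : Ideal R) ∈ sieveSet T := by
  refine ⟨top_ne_bot, fun 𝔭 _ h => ?_⟩
  exact 𝔭.isPrime.ne_top (top_le_iff.mp h)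

lemma sieveSet_insert_subset [DecidableEq (HeightOneSpectrum R)]
    (T : Finset (HeightOneSpectrum R)) (𝔭 : HeightOneSpectrum R) :
    sieveSet (insert 𝔭 T) ⊆ sieveSet T :=
  fun _ hI => ⟨hI.1, fun 𝔮 h𝔮 => hI.2 𝔮 (Finset.mem_insert_of_mem h𝔮)⟩

lemma sieveSet_eq_union [DecidableEq (HeightOneSpectrum R)]
    (T : Finset (HeightOneSpectrum R)) (𝔭 : HeightOneSpectrum R) (h𝔭 : 𝔭 ∉ T) :
    sieveSet T = sieveSet (insert 𝔭 T) ∪ (fun J => 𝔭.asIdeal * J) '' sieveSet T := by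
  ext I
  constructor
  · intro hI
    by_cases hle : I ≤ 𝔭.asIdeal
    · right
      obtain ⟨J, rfl⟩ := Ideal.dvd_iff_le.mpr hle
      refine ⟨J, ⟨?_, fun 𝔮 h𝔮 hJ => ?_⟩, rfl⟩
      · rintro rfl
        exact hI.1 (by simp)
      · exact hI.2 𝔮 h𝔮 (le_trans Ideal.mul_le_right hJ)
    · left
      refine ⟨hI.1, fun 𝔮 h𝔮 => ?_⟩
      rcases Finset.mem_insert.mp h𝔮 with rfl | h
      · exact hle
      · exact hI.2 𝔮 h
  · rintro (hI | ⟨J, hJ, rfl⟩)
    · exact sieveSet_insert_subset T 𝔭 hI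
    · refine ⟨mul_ne_zero 𝔭.ne_bot hJ.1, fun 𝔮 h𝔮 hle => ?_⟩
      rcases (𝔮.isPrime.mul_le).mp hle with h | h
      · have : 𝔭.asIdeal = 𝔮.asIdeal := 𝔭.isMaximal.eq_of_le 𝔮.isPrime.ne_top h
        have h2 : 𝔭 = 𝔮 := HeightOneSpectrum.ext this
        exact h𝔭 (h2 ▸ h𝔮)
      · exact hJ.2 𝔮 h𝔮 h

lemma sieveSet_disjoint [DecidableEq (HeightOneSpectrum R)]
    (T : Finset (HeightOneSpectrum R)) (𝔭 : HeightOneSpectrum R) :
    Disjoint (sieveSet (insert 𝔭 T)) ((fun J => 𝔭.asIdeal * J) '' sieveSet T) := by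
  rw [Set.disjoint_left]
  rintro I hI ⟨J, _, rfl⟩
  exact hI.2 𝔭 (Finset.mem_insert_self _ _) Ideal.mul_le_left

variable (w : Ideal R → ℝ)

/-- The sieved sum. -/
noncomputable def sieveSum (T : Finset (HeightOneSpectrum R)) : ℝ :=
  ∑' I : Ideal R, (sieveSet T).indicator w I

variable {w}

lemma sieveSum_insert [DecidableEq (HeightOneSpectrum R)]
    (hmul : ∀ I J, w (I * J) = w I * w J) (hsum : Summable w)
    (T : Finset (HeightOneSpectrum R)) (𝔭 : HeightOneSpectrum R) (h𝔭 : 𝔭 ∉ T) :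
    sieveSum w (insert 𝔭 T) = (1 - w 𝔭.asIdeal) * sieveSum w T := by
  have hinj : Function.Injective (fun J : Ideal R => 𝔭.asIdeal * J) :=
    mul_right_injective₀ 𝔭.ne_bot
  have h1 : sieveSum w T = sieveSum w (insert 𝔭 T) +
      ∑' I : Ideal R, ((fun J => 𝔭.asIdeal * J) '' sieveSet T).indicator w I := by
    unfold sieveSum
    rw [← Summable.tsum_add (hsum.indicator _) (hsum.indicator _)]
    congr 1
    ext I
    conv_lhs => rw [sieveSet_eq_union T 𝔭 h𝔭]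
    exact congrFun (Set.indicator_union_of_disjoint (sieveSet_disjoint T 𝔭) w) I
  have h2 : ∑' I : Ideal R, ((fun J => 𝔭.asIdeal * J) '' sieveSet T).indicator w I
      = w 𝔭.asIdeal * sieveSum w T := by
    unfold sieveSum
    rw [← tsum_subtype, tsum_image w hinj.injOn, ← tsum_subtype, ← tsum_mul_left]
    congr 1
    ext J
    exact hmul _ _
  rw [h2] at h1
  linarith

lemma sieveSum_empty (hbot : w ⊥ = 0) : sieveSum w ∅ = ∑' I, w I := by
  unfold sieveSum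
  congr 1
  ext I
  by_cases hI : I = ⊥
  · subst hI
    simp [sieveSet, hbot]
  · rw [Set.indicator_of_mem]
    exact ⟨hI, by simp⟩

lemma sieveSum_eq_prod [DecidableEq (HeightOneSpectrum R)]
    (hmul : ∀ I J, w (I * J) = w I * w J) (hbot : w ⊥ = 0) (hsum : Summable w)
    (T : Finset (HeightOneSpectrum R)) :
    sieveSum w T = (∏ 𝔭 ∈ T, (1 - w 𝔭.asIdeal)) * ∑' I, w I := by
  induction T using Finset.induction_on with
  | empty => simp [sieveSum_empty hbot]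
  | insert 𝔭 T h𝔭 ih =>
    rw [sieveSum_insert hmul hsum T 𝔭 h𝔭, ih, Finset.prod_insert h𝔭]
    ring

lemma one_le_sieveSum (hnn : ∀ I, 0 ≤ w I) (htop : w ⊤ = 1) (hsum : Summable w)
    (T : Finset (HeightOneSpectrum R)) : 1 ≤ sieveSum w T := by
  unfold sieveSum
  have h := (hsum.indicator (sieveSet T)).le_tsum (⊤ : Ideal R)
    (fun J _ => Set.indicator_nonneg (fun I _ => hnn I) J)
  rwa [Set.indicator_of_mem (top_mem_sieveSet T), htop] at h

lemma exists_finset_prime_cover (F : Finset (Ideal R)) :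
    ∃ T : Finset (HeightOneSpectrum R), ∀ I ∈ F, I ≠ ⊥ → I ≠ ⊤ → ∃ 𝔭 ∈ T, I ≤ 𝔭.asIdeal := by
  classical
  have key : ∀ I : Ideal R, ∃ T : Finset (HeightOneSpectrum R),
      I ≠ ⊥ → I ≠ ⊤ → ∃ 𝔭 ∈ T, I ≤ 𝔭.asIdeal := by
    intro I
    by_cases h : I ≠ ⊥ ∧ I ≠ ⊤
    · obtain ⟨M, hM, hIM⟩ := Ideal.exists_le_maximal I h.2
      have hMbot : M ≠ ⊥ := fun hb => h.1 (le_bot_iff.mp (hb ▸ hIM))
      exact ⟨{⟨M, hM.isPrime, hMbot⟩}, fun _ _ => ⟨_, Finset.mem_singleton_self _, hIM⟩⟩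
    · exact ⟨∅, fun h1 h2 => absurd ⟨h1, h2⟩ h⟩
  choose Tf hTf using key
  refine ⟨F.biUnion Tf, fun I hI h1 h2 => ?_⟩
  obtain ⟨𝔭, h𝔭, hle⟩ := hTf I h1 h2
  exact ⟨𝔭, Finset.mem_biUnion.mpr ⟨I, hI, h𝔭⟩, hle⟩

lemma sieveSum_anti [DecidableEq (HeightOneSpectrum R)]
    (hnn : ∀ I, 0 ≤ w I) (hsum : Summable w)
    {T T' : Finset (HeightOneSpectrum R)} (h : T ⊆ T') : sieveSum w T' ≤ sieveSum w T := by
  unfold sieveSum
  refine Summable.tsum_le_tsum (fun I => ?_) (hsum.indicator _) (hsum.indicator _)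
  refine Set.indicator_le_indicator_of_subset ?_ (fun I => hnn I) I
  exact fun I hI => ⟨hI.1, fun 𝔮 h𝔮 => hI.2 𝔮 (h h𝔮)⟩

lemma tendsto_sieveSum (hnn : ∀ I, 0 ≤ w I) (htop : w ⊤ = 1) (hsum : Summable w) :
    Tendsto (sieveSum w) atTop (𝓝 1) := by
  classical
  rw [Metric.tendsto_atTop]
  intro ε hε
  have htail := tendsto_tsum_compl_atTop_zero w
  rw [Metric.tendsto_atTop] at htail
  obtain ⟨F, hF⟩ := htail ε hε
  have hF' := hF F le_rfl
  rw [Real.dist_eq, sub_zero] at hF'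
  obtain ⟨T₀, hT₀⟩ := exists_finset_prime_cover F
  refine ⟨T₀, fun T hT => ?_⟩
  rw [Real.dist_eq, abs_of_nonneg (sub_nonneg.mpr (one_le_sieveSum hnn htop hsum T))]
  have hle : sieveSum w T ≤ 1 + ∑' a : {x // x ∉ F}, w a := by
    have hs1 : Summable (({⊤} : Set (Ideal R)).indicator w) := hsum.indicator _
    have hs2 : Summable (((F : Set (Ideal R))ᶜ).indicator w) := hsum.indicator _
    have e1 : ∑' I, ({⊤} : Set (Ideal R)).indicator w I = 1 := by
      rw [← tsum_subtype, tsum_singleton (⊤ : Ideal R) w, htop]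
    have e2 : ∑' I, ((F : Set (Ideal R))ᶜ).indicator w I = ∑' a : {x // x ∉ F}, w a := by
      rw [← tsum_subtype]
      rfl
    rw [← e1, ← e2, ← Summable.tsum_add hs1 hs2]
    unfold sieveSum
    refine Summable.tsum_le_tsum (fun I => ?_) (hsum.indicator _) (hs1.add hs2)
    by_cases hI : I ∈ sieveSet T
    · rw [Set.indicator_of_mem hI]
      by_cases htopI : I = ⊤
      · subst htopI
        have : (0:ℝ) ≤ ((F : Set (Ideal R))ᶜ).indicator w ⊤ :=
          Set.indicator_nonneg (fun I _ => hnn I) _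
        simp only [Set.mem_singleton_iff, Set.indicator_of_mem]
        linarith
      · have hIF : I ∉ F := by
          intro hIF
          obtain ⟨𝔭, h𝔭, hle⟩ := hT₀ I hIF hI.1 htopI
          exact hI.2 𝔭 (hT h𝔭) hle
        have : (0:ℝ) ≤ ({⊤} : Set (Ideal R)).indicator w I :=
          Set.indicator_nonneg (fun I _ => hnn I) _
        rw [Set.indicator_of_mem (show I ∈ ((F : Set (Ideal R))ᶜ) from hIF)]
        linarith
    · rw [Set.indicator_of_notMem hI]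
      exact add_nonneg (Set.indicator_nonneg (fun I _ => hnn I) _)
        (Set.indicator_nonneg (fun I _ => hnn I) _)
  have habs := le_abs_self (∑' a : {x // x ∉ F}, w a)
  linarith

/-- Partial Euler products are bounded by the full sum. -/
theorem prod_one_sub_inv_le_tsum (hnn : ∀ I, 0 ≤ w I) (htop : w ⊤ = 1) (hbot : w ⊥ = 0)
    (hmul : ∀ I J, w (I * J) = w I * w J) (hsum : Summable w)
    (hlt : ∀ 𝔭 : HeightOneSpectrum R, w 𝔭.asIdeal < 1) (T : Finset (HeightOneSpectrum R)) :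
    ∏ 𝔭 ∈ T, (1 - w 𝔭.asIdeal)⁻¹ ≤ ∑' I, w I := by
  classical
  have hpos : 0 < ∏ 𝔭 ∈ T, (1 - w 𝔭.asIdeal) :=
    Finset.prod_pos (fun 𝔭 _ => sub_pos.mpr (hlt 𝔭))
  have h1 := one_le_sieveSum hnn htop hsum T
  rw [sieveSum_eq_prod hmul hbot hsum T] at h1
  rw [Finset.prod_inv_distrib, inv_le_iff_one_le_mul₀ hpos]
  linarith

/-- **Euler product** over the height one primes of a Dedekind domain. -/
theorem hasProd_one_sub_inv (hnn : ∀ I, 0 ≤ w I) (htop : w ⊤ = 1) (hbot : w ⊥ = 0)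
    (hmul : ∀ I J, w (I * J) = w I * w J) (hsum : Summable w)
    (hlt : ∀ 𝔭 : HeightOneSpectrum R, w 𝔭.asIdeal < 1) :
    HasProd (fun 𝔭 : HeightOneSpectrum R => (1 - w 𝔭.asIdeal)⁻¹) (∑' I, w I) := by
  classical
  unfold HasProd
  have hne : ∀ T : Finset (HeightOneSpectrum R), (∏ 𝔭 ∈ T, (1 - w 𝔭.asIdeal)) ≠ 0 :=
    fun T => Finset.prod_ne_zero_iff.mpr (fun 𝔭 _ => (sub_pos.mpr (hlt 𝔭)).ne')
  have hpos : 0 < ∑' I, w I :=
    lt_of_lt_of_le one_pos (by
      have := hsum.le_tsum (⊤ : Ideal R) (fun J _ => hnn J)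
      rwa [htop] at this)
  have heq : ∀ T : Finset (HeightOneSpectrum R),
      (∏ 𝔭 ∈ T, (1 - w 𝔭.asIdeal)⁻¹) = (∑' I, w I) / sieveSum w T := by
    intro T
    rw [sieveSum_eq_prod hmul hbot hsum T, Finset.prod_inv_distrib]
    field_simp
  have h1 : Tendsto (fun T => (∑' I, w I) / sieveSum w T) atTop (𝓝 ((∑' I, w I) / 1)) :=
    tendsto_const_nhds.div (tendsto_sieveSum hnn htop hsum) one_ne_zero
  rw [div_one] at h1
  simpa only [heq, SummationFilter.unconditional_filter] using h1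

end Sieve

end Fermat.Agent.FrobDensity
end MergeWrap_Lib_FrobDensity_EulerSieve

section MergeWrap_Lib_FrobDensity_EulerZeta -- from Lib/FrobDensity/EulerZeta.lean

/-!
# Dedekind zeta: Euler product and the prime sum asymptotic (helper59, foundation F2')
-/

namespace Fermat.Agent.FrobDensity

open NumberField IsDedekindDomain Filter Topology Asymptotics

variable (K : Type*) [Field K] [NumberField K]

/-- The weight `N(I)^(-s)`. -/
noncomputable def normWeight (s : ℝ) (I : Ideal (𝓞 K)) : ℝ := (Ideal.absNorm I : ℝ) ^ (-s)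

variable {K}

lemma normWeight_nonneg (s : ℝ) (I : Ideal (𝓞 K)) : 0 ≤ normWeight K s I :=
  Real.rpow_nonneg (Nat.cast_nonneg _) _

lemma normWeight_top (s : ℝ) : normWeight K s ⊤ = 1 := by
  simp [normWeight]

lemma normWeight_bot {s : ℝ} (hs : s ≠ 0) : normWeight K s ⊥ = 0 := by
  simp [normWeight, Real.zero_rpow (neg_ne_zero.mpr hs)]

lemma normWeight_mul (s : ℝ) (I J : Ideal (𝓞 K)) :
    normWeight K s (I * J) = normWeight K s I * normWeight K s J := by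
  simp only [normWeight, map_mul, Nat.cast_mul]
  exact Real.mul_rpow (Nat.cast_nonneg _) (Nat.cast_nonneg _)

lemma two_le_absNorm (𝔭 : HeightOneSpectrum (𝓞 K)) : 2 ≤ Ideal.absNorm 𝔭.asIdeal := by
  have h0 : Ideal.absNorm 𝔭.asIdeal ≠ 0 := by
    rw [Ne, Ideal.absNorm_eq_zero_iff]; exact 𝔭.ne_bot
  have h1 : Ideal.absNorm 𝔭.asIdeal ≠ 1 := by
    rw [Ne, Ideal.absNorm_eq_one_iff]; exact 𝔭.isPrime.ne_top
  omega

lemma normWeight_prime_le_two_rpow {s : ℝ} (hs : 0 ≤ s) (𝔭 : HeightOneSpectrum (𝓞 K)) :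
    normWeight K s 𝔭.asIdeal ≤ (2 : ℝ) ^ (-s) := by
  unfold normWeight
  refine Real.rpow_le_rpow_of_nonpos (by norm_num) ?_ (by linarith)
  exact_mod_cast two_le_absNorm 𝔭

lemma normWeight_prime_le_half {s : ℝ} (hs : 1 ≤ s) (𝔭 : HeightOneSpectrum (𝓞 K)) :
    normWeight K s 𝔭.asIdeal ≤ 1 / 2 := by
  refine (normWeight_prime_le_two_rpow (by linarith) 𝔭).trans ?_
  have h := Real.rpow_le_rpow_of_exponent_le (x := (2:ℝ)) (by norm_num) (show -s ≤ -1 by linarith)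
  rwa [Real.rpow_neg_one, inv_eq_one_div] at h

lemma normWeight_prime_lt_one {s : ℝ} (hs : 1 ≤ s) (𝔭 : HeightOneSpectrum (𝓞 K)) :
    normWeight K s 𝔭.asIdeal < 1 :=
  (normWeight_prime_le_half hs 𝔭).trans_lt (by norm_num)

variable (K) in
lemma tendsto_sum_card_absNorm_div :
    Tendsto (fun n : ℕ ↦ (∑ k ∈ Finset.Icc 1 n,
      (Nat.card {I : Ideal (𝓞 K) // Ideal.absNorm I = k} : ℝ)) / (n : ℝ))
      atTop (𝓝 (dedekindZeta_residue K)) := by
  refine ((NumberField.Ideal.tendsto_norm_le_div_atTop₀ K).comp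
    tendsto_natCast_atTop_atTop).congr fun n ↦ ?_
  simp only [Function.comp_apply, Nat.cast_le, ← Nat.cast_sum]
  congr
  rw [← add_left_inj 1, ← Ideal.card_norm_le_eq_card_norm_le_add_one,
    show Finset.Icc 1 n = Finset.Ioc 0 n from Finset.Icc_succ_left_eq_Ioc _ _,
    show 1 = Nat.card {I : Ideal (𝓞 K) // Ideal.absNorm I = 0} by
      simp [Ideal.absNorm_eq_zero_iff],
    Finset.sum_Ioc_add_eq_sum_Icc (n.zero_le),
    ← Finset.card_preimage_eq_sum_card_image_eq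
      (fun k _ ↦ Ideal.finite_setOfPred_absNorm_eq k)]
  simp [Set.coe_eq_subtype]

variable (K) in
lemma lseriesSummable_card_absNorm {s : ℝ} (hs : 1 < s) :
    LSeriesSummable
      (fun n ↦ ((Nat.card {I : Ideal (𝓞 K) // Ideal.absNorm I = n} : ℝ) : ℂ)) (s : ℂ) := by
  refine LSeriesSummable_of_sum_norm_bigO_and_nonneg
    (f := fun n ↦ (Nat.card {I : Ideal (𝓞 K) // Ideal.absNorm I = n} : ℝ)) (r := 1)
    ?_ (fun _ ↦ Nat.cast_nonneg _) zero_le_one (by simpa using hs)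
  exact isBigO_atTop_natCast_rpow_of_tendsto_div_rpow
    (by simpa using tendsto_sum_card_absNorm_div K)

/-- the counting function of ideals of given norm -/
noncomputable abbrev idealCountAux (K : Type*) [Field K] [NumberField K] (n : ℕ) : ℕ :=
  Nat.card {I : Ideal (𝓞 K) // Ideal.absNorm I = n}

lemma lseries_term_idealCountAux {s : ℝ} (hs : s ≠ 0) (n : ℕ) :
    LSeries.term (fun n ↦ ((idealCountAux K n : ℝ) : ℂ)) (s : ℂ) n
      = (((idealCountAux K n : ℝ) * (n : ℝ) ^ (-s) : ℝ) : ℂ) := by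
  rcases eq_or_ne n 0 with rfl | hn
  · simp [Real.zero_rpow (neg_ne_zero.mpr hs)]
  · rw [LSeries.term_of_ne_zero hn, Real.rpow_neg (Nat.cast_nonneg n), Complex.ofReal_mul,
      Complex.ofReal_inv, Complex.ofReal_cpow (Nat.cast_nonneg n), div_eq_mul_inv]
    simp

lemma tsum_fiber_normWeight (s : ℝ) (n : ℕ) :
    ∑' I : {I : Ideal (𝓞 K) // Ideal.absNorm I = n}, normWeight K s I.1
      = (idealCountAux K n : ℝ) * (n : ℝ) ^ (-s) := by
  have : Finite {I : Ideal (𝓞 K) // Ideal.absNorm I = n} := Ideal.finite_setOfPred_absNorm_eq n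
  letI := Fintype.ofFinite {I : Ideal (𝓞 K) // Ideal.absNorm I = n}
  have h : ∀ I : {I : Ideal (𝓞 K) // Ideal.absNorm I = n}, normWeight K s I.1 = (n : ℝ) ^ (-s) :=
    fun I => by simp [normWeight, I.2]
  rw [tsum_fintype]
  unfold idealCountAux
  rw [Nat.card_eq_fintype_card]
  simp [h, Finset.sum_const, Finset.card_univ]

variable (K) in
lemma summable_idealCountAux_mul {s : ℝ} (hs : 1 < s) :
    Summable (fun n : ℕ ↦ (idealCountAux K n : ℝ) * (n : ℝ) ^ (-s)) := by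
  have h := lseriesSummable_card_absNorm K hs
  unfold LSeriesSummable at h
  have h2 : (fun n ↦ LSeries.term (fun n ↦ ((idealCountAux K n : ℝ) : ℂ)) (s : ℂ) n)
      = fun n ↦ (((idealCountAux K n : ℝ) * (n : ℝ) ^ (-s) : ℝ) : ℂ) :=
    funext fun n ↦ lseries_term_idealCountAux (by linarith) n
  rw [show LSeries.term (fun n ↦ ((idealCountAux K n : ℝ) : ℂ)) (s : ℂ) = _ from h2] at h
  exact Complex.summable_ofReal.mp h

variable (K) in
lemma summable_normWeight {s : ℝ} (hs : 1 < s) : Summable (normWeight K s) := by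
  rw [← (Equiv.sigmaFiberEquiv (fun I : Ideal (𝓞 K) ↦ Ideal.absNorm I)).summable_iff]
  change Summable (fun p : (Σ n : ℕ, {I : Ideal (𝓞 K) // Ideal.absNorm I = n}) ↦
    normWeight K s p.2.1)
  rw [summable_sigma_of_nonneg (fun _ ↦ normWeight_nonneg _ _)]
  refine ⟨fun n ↦ ?_, ?_⟩
  · have : Finite {I : Ideal (𝓞 K) // Ideal.absNorm I = n} :=
      Ideal.finite_setOfPred_absNorm_eq n
    exact Summable.of_finite
  · have := summable_idealCountAux_mul K hs
    refine this.congr fun n ↦ ?_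
    exact (tsum_fiber_normWeight s n).symm

variable (K) in
lemma tsum_normWeight_eq {s : ℝ} (hs : 1 < s) :
    ∑' I, normWeight K s I = ∑' n : ℕ, (idealCountAux K n : ℝ) * (n : ℝ) ^ (-s) := by
  have hsum := summable_normWeight K hs
  rw [← (Equiv.sigmaFiberEquiv (fun I : Ideal (𝓞 K) ↦ Ideal.absNorm I)).tsum_eq]
  rw [← (Equiv.sigmaFiberEquiv (fun I : Ideal (𝓞 K) ↦ Ideal.absNorm I)).summable_iff] at hsum
  change Summable (fun p : (Σ n : ℕ, {I : Ideal (𝓞 K) // Ideal.absNorm I = n}) ↦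
    normWeight K s p.2.1) at hsum
  change ∑' p : (Σ n : ℕ, {I : Ideal (𝓞 K) // Ideal.absNorm I = n}), normWeight K s p.2.1 = _
  rw [hsum.tsum_sigma]
  exact tsum_congr fun n ↦ tsum_fiber_normWeight s n

variable (K) in
lemma dedekindZeta_eq_tsum_normWeight {s : ℝ} (hs : 1 < s) :
    dedekindZeta K (s : ℂ) = ((∑' I, normWeight K s I : ℝ) : ℂ) := by
  rw [tsum_normWeight_eq K hs, Complex.ofReal_tsum]
  unfold dedekindZeta LSeries
  refine tsum_congr fun n ↦ ?_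
  rw [← lseries_term_idealCountAux (by linarith) n]
  simp

/-! ### The prime sum versus `log ζ_K` -/

/-- The sum of `N𝔭^(-s)` over all primes. -/
noncomputable def primeSum (K : Type*) [Field K] [NumberField K] (s : ℝ) : ℝ :=
  ∑' 𝔭 : HeightOneSpectrum (𝓞 K), normWeight K s 𝔭.asIdeal

/-- The real value of the Dedekind zeta function. -/
noncomputable def zetaSum (K : Type*) [Field K] [NumberField K] (s : ℝ) : ℝ :=
  ∑' I : Ideal (𝓞 K), normWeight K s I

omit [NumberField K] in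
lemma asIdeal_injective : Function.Injective
    (fun 𝔭 : HeightOneSpectrum (𝓞 K) ↦ 𝔭.asIdeal) :=
  fun _ _ h ↦ HeightOneSpectrum.ext h

variable (K) in
lemma summable_normWeight_prime {s : ℝ} (hs : 1 < s) :
    Summable (fun 𝔭 : HeightOneSpectrum (𝓞 K) ↦ normWeight K s 𝔭.asIdeal) :=
  (summable_normWeight K hs).comp_injective asIdeal_injective

variable (K) in
lemma one_le_zetaSum {s : ℝ} (hs : 1 < s) : 1 ≤ zetaSum K s := by
  have := (summable_normWeight K hs).le_tsum (⊤ : Ideal (𝓞 K))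
    (fun J _ ↦ normWeight_nonneg s J)
  rwa [normWeight_top] at this

variable (K) in
lemma hasProd_zetaSum {s : ℝ} (hs : 1 < s) :
    HasProd (fun 𝔭 : HeightOneSpectrum (𝓞 K) ↦ (1 - normWeight K s 𝔭.asIdeal)⁻¹)
      (zetaSum K s) :=
  hasProd_one_sub_inv (normWeight_nonneg s) (normWeight_top s) (normWeight_bot (by linarith))
    (normWeight_mul s) (summable_normWeight K hs) (normWeight_prime_lt_one hs.le)

variable (K) in
lemma prod_le_zetaSum {s : ℝ} (hs : 1 < s) (T : Finset (HeightOneSpectrum (𝓞 K))) :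
    ∏ 𝔭 ∈ T, (1 - normWeight K s 𝔭.asIdeal)⁻¹ ≤ zetaSum K s :=
  prod_one_sub_inv_le_tsum (normWeight_nonneg s) (normWeight_top s)
    (normWeight_bot (by linarith)) (normWeight_mul s) (summable_normWeight K hs)
    (normWeight_prime_lt_one hs.le) T

lemma le_neg_log_one_sub {x : ℝ} (hx : x < 1) : x ≤ -Real.log (1 - x) := by
  have := Real.log_le_sub_one_of_pos (sub_pos.mpr hx)
  linarith

lemma neg_log_one_sub_le {x : ℝ} (hx0 : 0 ≤ x) (hx : x ≤ 1 / 2) :
    -Real.log (1 - x) ≤ x + 2 * x ^ 2 := by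
  have hpos : 0 < 1 - x := by linarith
  have h1 := Real.log_le_sub_one_of_pos (inv_pos.mpr hpos)
  rw [Real.log_inv] at h1
  have h2 : (1 - x)⁻¹ ≤ 1 + x + 2 * x ^ 2 := by
    rw [inv_le_iff_one_le_mul₀ hpos]
    nlinarith [mul_nonneg hx0 hx0, mul_nonneg (mul_nonneg hx0 hx0) (by linarith : 0 ≤ 1 - 2 * x)]
  linarith

lemma log_prod_one_sub_inv {s : ℝ} (hs : 1 < s) (T : Finset (HeightOneSpectrum (𝓞 K))) :
    Real.log (∏ 𝔭 ∈ T, (1 - normWeight K s 𝔭.asIdeal)⁻¹)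
      = ∑ 𝔭 ∈ T, -Real.log (1 - normWeight K s 𝔭.asIdeal) := by
  rw [Real.log_prod]
  · exact Finset.sum_congr rfl fun 𝔭 _ ↦ Real.log_inv _
  · intro 𝔭 _
    exact inv_ne_zero (sub_pos.mpr (normWeight_prime_lt_one hs.le 𝔭)).ne'

variable (K) in
/-- Upper bound: `∑ N𝔭^(-s) ≤ log ζ_K(s)`. -/
lemma primeSum_le_log_zetaSum {s : ℝ} (hs : 1 < s) :
    primeSum K s ≤ Real.log (zetaSum K s) := by
  unfold primeSum
  refine (summable_normWeight_prime K hs).tsum_le_of_sum_le fun T ↦ ?_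
  have hpos : 0 < ∏ 𝔭 ∈ T, (1 - normWeight K s 𝔭.asIdeal)⁻¹ :=
    Finset.prod_pos fun 𝔭 _ ↦ inv_pos.mpr (sub_pos.mpr (normWeight_prime_lt_one hs.le 𝔭))
  calc ∑ 𝔭 ∈ T, normWeight K s 𝔭.asIdeal
      ≤ ∑ 𝔭 ∈ T, -Real.log (1 - normWeight K s 𝔭.asIdeal) :=
        Finset.sum_le_sum fun 𝔭 _ ↦ le_neg_log_one_sub (normWeight_prime_lt_one hs.le 𝔭)
    _ = Real.log (∏ 𝔭 ∈ T, (1 - normWeight K s 𝔭.asIdeal)⁻¹) := (log_prod_one_sub_inv hs T).symm
    _ ≤ Real.log (zetaSum K s) := Real.log_le_log hpos (prod_le_zetaSum K hs T)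

lemma normWeight_sq_le {s : ℝ} (hs : 1 ≤ s) (𝔭 : HeightOneSpectrum (𝓞 K)) :
    normWeight K s 𝔭.asIdeal ^ 2 ≤ normWeight K 2 𝔭.asIdeal := by
  unfold normWeight
  have h1 : (1 : ℝ) ≤ (Ideal.absNorm 𝔭.asIdeal : ℝ) := by
    exact_mod_cast (le_trans (by norm_num) (two_le_absNorm 𝔭))
  rw [← Real.rpow_natCast, ← Real.rpow_mul (by linarith)]
  exact Real.rpow_le_rpow_of_exponent_le h1 (by push_cast; linarith)

variable (K) in
/-- Lower bound: `log ζ_K(s) ≤ ∑ N𝔭^(-s) + 2 ∑ N𝔭^(-2)`. -/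
lemma log_zetaSum_le {s : ℝ} (hs : 1 < s) :
    Real.log (zetaSum K s) ≤ primeSum K s + 2 * primeSum K 2 := by
  have hZ : 0 < zetaSum K s := lt_of_lt_of_le one_pos (one_le_zetaSum K hs)
  rw [Real.log_le_iff_le_exp hZ]
  refine le_of_tendsto' (hasProd_zetaSum K hs) fun T ↦ ?_
  have hpos : 0 < ∏ 𝔭 ∈ T, (1 - normWeight K s 𝔭.asIdeal)⁻¹ :=
    Finset.prod_pos fun 𝔭 _ ↦ inv_pos.mpr (sub_pos.mpr (normWeight_prime_lt_one hs.le 𝔭))
  rw [← Real.log_le_iff_le_exp hpos, log_prod_one_sub_inv hs T]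
  have hs2 : Summable (fun 𝔭 : HeightOneSpectrum (𝓞 K) ↦ normWeight K 2 𝔭.asIdeal) :=
    summable_normWeight_prime K (by norm_num)
  have hss := summable_normWeight_prime K hs
  calc ∑ 𝔭 ∈ T, -Real.log (1 - normWeight K s 𝔭.asIdeal)
      ≤ ∑ 𝔭 ∈ T, (normWeight K s 𝔭.asIdeal + 2 * normWeight K 2 𝔭.asIdeal) := by
        refine Finset.sum_le_sum fun 𝔭 _ ↦ ?_
        have := neg_log_one_sub_le (normWeight_nonneg s 𝔭.asIdeal)
          (normWeight_prime_le_half hs.le 𝔭)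
        have h2 := normWeight_sq_le hs.le 𝔭
        linarith
    _ = ∑ 𝔭 ∈ T, normWeight K s 𝔭.asIdeal + 2 * ∑ 𝔭 ∈ T, normWeight K 2 𝔭.asIdeal := by
        rw [Finset.sum_add_distrib, Finset.mul_sum]
    _ ≤ primeSum K s + 2 * primeSum K 2 := by
        have a1 := hss.sum_le_tsum T (fun 𝔭 _ ↦ normWeight_nonneg s 𝔭.asIdeal)
        have a2 := hs2.sum_le_tsum T (fun 𝔭 _ ↦ normWeight_nonneg 2 𝔭.asIdeal)
        unfold primeSum
        linarith

variable (K) in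
lemma tendsto_sub_one_mul_zetaSum :
    Tendsto (fun s : ℝ ↦ (s - 1) * zetaSum K s) (𝓝[>] 1) (𝓝 (dedekindZeta_residue K)) := by
  have h := tendsto_sub_one_mul_dedekindZeta_nhdsGT K
  have h2 := (Complex.continuous_re.tendsto _).comp h
  rw [Complex.ofReal_re] at h2
  refine h2.congr' ?_
  filter_upwards [self_mem_nhdsWithin] with s hs
  have hs' : 1 < s := hs
  simp only [Function.comp_apply]
  rw [dedekindZeta_eq_tsum_normWeight K hs']
  unfold zetaSum
  rw [← Complex.ofReal_one, ← Complex.ofReal_sub, ← Complex.ofReal_mul, Complex.ofReal_re]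

variable (K) in
/-- `∑ N𝔭^(-s) = log (1/(s-1)) + O(1)` as `s → 1⁺`. -/
theorem exists_bound_primeSum_sub_log :
    ∃ C δ : ℝ, 0 < δ ∧ ∀ s : ℝ, 1 < s → s < 1 + δ →
      |primeSum K s - Real.log (1 / (s - 1))| ≤ C := by
  set κ := dedekindZeta_residue K with hκ
  have hκpos : 0 < κ := dedekindZeta_residue_pos K
  have hev : ∀ᶠ s in 𝓝[>] (1 : ℝ), (s - 1) * zetaSum K s ∈ Set.Ioo (κ / 2) (2 * κ) :=
    (tendsto_sub_one_mul_zetaSum K).eventually
      (Ioo_mem_nhds (by linarith) (by linarith))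
  obtain ⟨u, hu, hU⟩ := (nhdsGT_basis (1 : ℝ)).eventually_iff.mp hev
  refine ⟨|Real.log (κ / 2)| + |Real.log (2 * κ)| + 2 * primeSum K 2, u - 1, by linarith,
    fun s hs hsu ↦ ?_⟩
  have hmem := hU (show s ∈ Set.Ioo 1 u from ⟨hs, by linarith⟩)
  have hZ : 0 < zetaSum K s := lt_of_lt_of_le one_pos (one_le_zetaSum K hs)
  have hs1 : 0 < s - 1 := by linarith
  have hlog : Real.log (zetaSum K s) =
      Real.log ((s - 1) * zetaSum K s) + Real.log (1 / (s - 1)) := by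
    rw [Real.log_mul hs1.ne' hZ.ne', one_div, Real.log_inv]
    ring
  have h1 := primeSum_le_log_zetaSum K hs
  have h2 := log_zetaSum_le K hs
  have h3 : Real.log (κ / 2) ≤ Real.log ((s - 1) * zetaSum K s) :=
    Real.log_le_log (by linarith) hmem.1.le
  have h4 : Real.log ((s - 1) * zetaSum K s) ≤ Real.log (2 * κ) :=
    Real.log_le_log (lt_trans (by linarith) hmem.1) hmem.2.le
  have h5 : 0 ≤ primeSum K 2 := tsum_nonneg fun 𝔭 ↦ normWeight_nonneg 2 𝔭.asIdeal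
  have a1 := neg_abs_le (Real.log (κ / 2))
  have a2 := le_abs_self (Real.log (2 * κ))
  have a3 := abs_nonneg (Real.log (κ / 2))
  have a4 := abs_nonneg (Real.log (2 * κ))
  rw [abs_le]
  constructor <;> linarith

/-! ### Counting the primes above a rational prime -/

lemma card_le_finrank_of_natCast_mem {p : ℕ} (hp : p.Prime)
    (T : Finset (HeightOneSpectrum (𝓞 K))) (hT : ∀ 𝔭 ∈ T, (p : 𝓞 K) ∈ 𝔭.asIdeal) :
    T.card ≤ Module.finrank ℚ K := by
  classical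
  have hdvd : ∏ 𝔭 ∈ T, 𝔭.asIdeal ∣ Ideal.span {(p : 𝓞 K)} := by
    have := Finset.prod_map T ⟨_, asIdeal_injective (K := K)⟩ (fun I : Ideal (𝓞 K) ↦ I)
    simp only [Function.Embedding.coeFn_mk] at this
    rw [← this]
    refine Finset.prod_primes_dvd _ ?_ ?_
    · intro I hI
      obtain ⟨𝔭, _, rfl⟩ := Finset.mem_map.mp hI
      exact 𝔭.prime
    · intro I hI
      obtain ⟨𝔭, h𝔭, rfl⟩ := Finset.mem_map.mp hI
      simp only [Function.Embedding.coeFn_mk]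
      rw [Ideal.dvd_iff_le, Ideal.span_singleton_le_iff_mem]
      exact hT 𝔭 h𝔭
  have hnorm := map_dvd Ideal.absNorm hdvd
  rw [map_prod, Ideal.absNorm_span_natCast, NumberField.RingOfIntegers.rank] at hnorm
  have hge : ∀ 𝔭 ∈ T, p ≤ Ideal.absNorm 𝔭.asIdeal := by
    intro 𝔭 h𝔭
    have h1 : Ideal.absNorm 𝔭.asIdeal ∣ p ^ Module.finrank ℚ K := by
      have := Ideal.absNorm_dvd_absNorm_of_le
        ((Ideal.span_singleton_le_iff_mem (I := 𝔭.asIdeal)).mpr (hT 𝔭 h𝔭))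
      rwa [Ideal.absNorm_span_natCast, NumberField.RingOfIntegers.rank] at this
    obtain ⟨k, _, hk⟩ := (Nat.dvd_prime_pow hp).mp h1
    have h2 := two_le_absNorm 𝔭
    rw [hk] at h2 ⊢
    rcases Nat.eq_zero_or_pos k with rfl | hk0
    · simp at h2
    · exact Nat.le_self_pow hk0.ne' p
  have hle : p ^ T.card ≤ p ^ Module.finrank ℚ K :=
    calc p ^ T.card = ∏ _𝔭 ∈ T, p := by simp
      _ ≤ ∏ 𝔭 ∈ T, Ideal.absNorm 𝔭.asIdeal := Finset.prod_le_prod' hge
      _ ≤ p ^ Module.finrank ℚ K := Nat.le_of_dvd (pow_pos hp.pos _) hnorm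
  exact (Nat.pow_le_pow_iff_right hp.one_lt).mp hle

/-- The rational prime below a prime ideal. -/
noncomputable def ratPrime (𝔭 : HeightOneSpectrum (𝓞 K)) : ℕ :=
  (Ideal.absNorm 𝔭.asIdeal).minFac

lemma exists_absNorm_eq_ratPrime_pow (𝔭 : HeightOneSpectrum (𝓞 K)) :
    ∃ n : ℕ, 0 < n ∧ (ratPrime 𝔭).Prime ∧ ((ratPrime 𝔭 : ℕ) : 𝓞 K) ∈ 𝔭.asIdeal ∧
      Ideal.absNorm 𝔭.asIdeal = ratPrime 𝔭 ^ n := by
  haveI := 𝔭.isMaximal
  obtain ⟨q, n, hn, hmem, hq, hnorm⟩ := Ideal.exists_prime_and_absNorm_eq_pow 𝔭.asIdeal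
  have hrat : ratPrime 𝔭 = q := by
    unfold ratPrime
    rw [hnorm, hq.pow_minFac hn.ne']
  exact ⟨n, hn, hrat ▸ hq, hrat ▸ hmem, hrat ▸ hnorm⟩

lemma normWeight_le_of_not_prime {s : ℝ} (hs : 1 ≤ s) (𝔭 : HeightOneSpectrum (𝓞 K))
    (h : ¬ (Ideal.absNorm 𝔭.asIdeal).Prime) :
    normWeight K s 𝔭.asIdeal ≤ ((ratPrime 𝔭 : ℝ) ^ 2)⁻¹ := by
  obtain ⟨n, hn, hq, _, hnorm⟩ := exists_absNorm_eq_ratPrime_pow 𝔭
  have hn2 : 2 ≤ n := by
    rcases Nat.lt_or_ge n 2 with h1 | h1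
    · exfalso
      have : n = 1 := by omega
      subst this
      rw [pow_one] at hnorm
      exact h (hnorm ▸ hq)
    · exact h1
  have hq1 : (1 : ℝ) ≤ (ratPrime 𝔭 : ℝ) := by exact_mod_cast hq.one_lt.le
  have hqpos : (0 : ℝ) < (ratPrime 𝔭 : ℝ) := by linarith
  have hN : ((ratPrime 𝔭 : ℝ)) ^ 2 ≤ (Ideal.absNorm 𝔭.asIdeal : ℝ) := by
    rw [hnorm]
    push_cast
    exact pow_le_pow_right₀ hq1 hn2
  have hNpos : (0 : ℝ) < (Ideal.absNorm 𝔭.asIdeal : ℝ) := lt_of_lt_of_le (by positivity) hN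
  have hN1 : (1 : ℝ) ≤ (Ideal.absNorm 𝔭.asIdeal : ℝ) := by
    exact_mod_cast (le_trans (by norm_num) (two_le_absNorm 𝔭))
  unfold normWeight
  calc (Ideal.absNorm 𝔭.asIdeal : ℝ) ^ (-s)
      ≤ (Ideal.absNorm 𝔭.asIdeal : ℝ) ^ (-1 : ℝ) :=
        Real.rpow_le_rpow_of_exponent_le hN1 (by linarith)
    _ = ((Ideal.absNorm 𝔭.asIdeal : ℝ))⁻¹ := Real.rpow_neg_one _
    _ ≤ ((ratPrime 𝔭 : ℝ) ^ 2)⁻¹ := inv_anti₀ (by positivity) hN

variable (K) in
/-- The primes of degree at least two contribute a bounded amount. -/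
lemma sum_not_prime_le {s : ℝ} (hs : 1 ≤ s) (T : Finset (HeightOneSpectrum (𝓞 K)))
    (hT : ∀ 𝔭 ∈ T, ¬ (Ideal.absNorm 𝔭.asIdeal).Prime) :
    ∑ 𝔭 ∈ T, normWeight K s 𝔭.asIdeal ≤
      (Module.finrank ℚ K : ℝ) * ∑' n : ℕ, ((n : ℝ) ^ 2)⁻¹ := by
  classical
  have hsumm : Summable (fun n : ℕ ↦ ((n : ℝ) ^ 2)⁻¹) :=
    Real.summable_nat_pow_inv.mpr (by norm_num)
  calc ∑ 𝔭 ∈ T, normWeight K s 𝔭.asIdeal
      ≤ ∑ 𝔭 ∈ T, ((ratPrime 𝔭 : ℝ) ^ 2)⁻¹ :=
        Finset.sum_le_sum fun 𝔭 h𝔭 ↦ normWeight_le_of_not_prime hs 𝔭 (hT 𝔭 h𝔭)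
    _ = ∑ q ∈ T.image ratPrime, (T.filter (fun 𝔭 ↦ ratPrime 𝔭 = q)).card • ((q : ℝ) ^ 2)⁻¹ :=
        Finset.sum_comp (fun q : ℕ ↦ ((q : ℝ) ^ 2)⁻¹) ratPrime
    _ ≤ ∑ q ∈ T.image ratPrime, (Module.finrank ℚ K : ℝ) * ((q : ℝ) ^ 2)⁻¹ := by
        refine Finset.sum_le_sum fun q hq ↦ ?_
        rw [nsmul_eq_mul]
        refine mul_le_mul_of_nonneg_right ?_ (by positivity)
        obtain ⟨𝔭₀, _, h𝔭₀⟩ := Finset.mem_image.mp hq
        have hqprime : q.Prime := by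
          obtain ⟨_, _, hp, _, _⟩ := exists_absNorm_eq_ratPrime_pow 𝔭₀
          exact h𝔭₀ ▸ hp
        have := card_le_finrank_of_natCast_mem hqprime (T.filter (fun 𝔭 ↦ ratPrime 𝔭 = q))
          (fun 𝔭 h𝔭 ↦ by
            obtain ⟨_, _, _, hmem, _⟩ := exists_absNorm_eq_ratPrime_pow 𝔭
            rw [(Finset.mem_filter.mp h𝔭).2] at hmem
            exact hmem)
        exact_mod_cast this
    _ = (Module.finrank ℚ K : ℝ) * ∑ q ∈ T.image ratPrime, ((q : ℝ) ^ 2)⁻¹ := by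
        rw [Finset.mul_sum]
    _ ≤ (Module.finrank ℚ K : ℝ) * ∑' n : ℕ, ((n : ℝ) ^ 2)⁻¹ := by
        refine mul_le_mul_of_nonneg_left ?_ (Nat.cast_nonneg _)
        exact hsumm.sum_le_tsum _ (fun n _ ↦ by positivity)

/-! ### The sum over rational primes weighted by `idealCount` -/

/-- The weight restricted to ideals of prime norm. -/
noncomputable def primeNormWeight (K : Type*) [Field K] [NumberField K] (s : ℝ) :
    Ideal (𝓞 K) → ℝ :=
  Set.indicator {I : Ideal (𝓞 K) | (Ideal.absNorm I).Prime} (normWeight K s)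

lemma primeNormWeight_nonneg (s : ℝ) (I : Ideal (𝓞 K)) : 0 ≤ primeNormWeight K s I :=
  Set.indicator_nonneg (fun I _ ↦ normWeight_nonneg s I) I

lemma primeNormWeight_le (s : ℝ) (I : Ideal (𝓞 K)) :
    primeNormWeight K s I ≤ normWeight K s I :=
  Set.indicator_le_self' (fun I _ ↦ normWeight_nonneg s I) I

variable (K) in
lemma summable_primeNormWeight {s : ℝ} (hs : 1 < s) : Summable (primeNormWeight K s) :=
  (summable_normWeight K hs).indicator _

lemma tsum_fiber_primeNormWeight (s : ℝ) (n : ℕ) :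
    ∑' I : {I : Ideal (𝓞 K) // Ideal.absNorm I = n}, primeNormWeight K s I.1
      = Set.indicator {n : ℕ | n.Prime}
          (fun n ↦ (idealCount K n : ℝ) * (n : ℝ) ^ (-s)) n := by
  by_cases hn : n.Prime
  · rw [Set.indicator_of_mem (show n ∈ {n : ℕ | n.Prime} from hn)]
    rw [show (idealCount K n : ℝ) * (n : ℝ) ^ (-s) = (idealCountAux K n : ℝ) * (n : ℝ) ^ (-s)
      from rfl, ← tsum_fiber_normWeight s n]
    refine tsum_congr fun I ↦ ?_
    have hI : (Ideal.absNorm I.1).Prime := by rw [I.2]; exact hn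
    exact Set.indicator_of_mem (show I.1 ∈ {I : Ideal (𝓞 K) | (Ideal.absNorm I).Prime} from
      hI) _
  · rw [Set.indicator_of_notMem (show n ∉ {n : ℕ | n.Prime} from hn)]
    have : ∀ I : {I : Ideal (𝓞 K) // Ideal.absNorm I = n}, primeNormWeight K s I.1 = 0 :=
      fun I ↦ Set.indicator_of_notMem
        (show I.1 ∉ {I : Ideal (𝓞 K) | (Ideal.absNorm I).Prime} from fun h ↦ hn (I.2 ▸ h)) _
    simp [this]

variable (K) in
lemma tsum_primeNormWeight_eq {s : ℝ} (hs : 1 < s) :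
    ∑' I, primeNormWeight K s I
      = ∑' p : Nat.Primes, (idealCount K p : ℝ) * ((p : ℕ) : ℝ) ^ (-s) := by
  have hsum := summable_primeNormWeight K hs
  rw [← (Equiv.sigmaFiberEquiv (fun I : Ideal (𝓞 K) ↦ Ideal.absNorm I)).tsum_eq]
  rw [← (Equiv.sigmaFiberEquiv (fun I : Ideal (𝓞 K) ↦ Ideal.absNorm I)).summable_iff] at hsum
  change Summable (fun p : (Σ n : ℕ, {I : Ideal (𝓞 K) // Ideal.absNorm I = n}) ↦
    primeNormWeight K s p.2.1) at hsum
  change ∑' p : (Σ n : ℕ, {I : Ideal (𝓞 K) // Ideal.absNorm I = n}),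
    primeNormWeight K s p.2.1 = _
  rw [hsum.tsum_sigma]
  rw [tsum_congr fun n ↦ tsum_fiber_primeNormWeight s n]
  rw [← tsum_subtype {n : ℕ | n.Prime} (fun n ↦ (idealCount K n : ℝ) * (n : ℝ) ^ (-s))]
  rfl

lemma primeNormWeight_asIdeal (s : ℝ) (𝔭 : HeightOneSpectrum (𝓞 K)) :
    primeNormWeight K s 𝔭.asIdeal =
      if (Ideal.absNorm 𝔭.asIdeal).Prime then normWeight K s 𝔭.asIdeal else 0 := by
  unfold primeNormWeight
  by_cases h : (Ideal.absNorm 𝔭.asIdeal).Prime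
  · rw [if_pos h]
    exact Set.indicator_of_mem (show 𝔭.asIdeal ∈ {I : Ideal (𝓞 K) | (Ideal.absNorm I).Prime}
      from h) _
  · rw [if_neg h]
    exact Set.indicator_of_notMem
      (show 𝔭.asIdeal ∉ {I : Ideal (𝓞 K) | (Ideal.absNorm I).Prime} from h) _

variable (K) in
lemma tsum_primeNormWeight_eq_tsum_prime (s : ℝ) :
    ∑' I, primeNormWeight K s I
      = ∑' 𝔭 : HeightOneSpectrum (𝓞 K), primeNormWeight K s 𝔭.asIdeal := by
  refine (Function.Injective.tsum_eq asIdeal_injective ?_).symm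
  intro I hI
  have hI' : I ∈ {I : Ideal (𝓞 K) | (Ideal.absNorm I).Prime} := by
    by_contra h
    exact hI (Set.indicator_of_notMem h _)
  have hprime : I.IsPrime := Ideal.isPrime_of_irreducible_absNorm
    (Nat.prime_iff.mp hI').irreducible
  have hbot : I ≠ ⊥ := by
    rintro rfl
    have hI'' : (Ideal.absNorm (⊥ : Ideal (𝓞 K))).Prime := hI'
    rw [Ideal.absNorm_bot] at hI''
    exact Nat.not_prime_zero hI''
  exact ⟨⟨I, hprime, hbot⟩, rfl⟩

/-- The contribution of the primes of degree at least two. -/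
noncomputable def highSum (K : Type*) [Field K] [NumberField K] (s : ℝ) : ℝ :=
  ∑' 𝔭 : HeightOneSpectrum (𝓞 K),
    (if (Ideal.absNorm 𝔭.asIdeal).Prime then 0 else normWeight K s 𝔭.asIdeal)

variable (K) in
lemma highSum_nonneg (s : ℝ) : 0 ≤ highSum K s :=
  tsum_nonneg fun 𝔭 ↦ by
    split_ifs
    · exact le_rfl
    · exact normWeight_nonneg s 𝔭.asIdeal

variable (K) in
lemma highSum_le {s : ℝ} (hs : 1 < s) :
    highSum K s ≤ (Module.finrank ℚ K : ℝ) * ∑' n : ℕ, ((n : ℝ) ^ 2)⁻¹ := by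
  classical
  unfold highSum
  have hsum : Summable (fun 𝔭 : HeightOneSpectrum (𝓞 K) ↦
      (if (Ideal.absNorm 𝔭.asIdeal).Prime then 0 else normWeight K s 𝔭.asIdeal)) := by
    refine Summable.of_nonneg_of_le (fun 𝔭 ↦ ?_) (fun 𝔭 ↦ ?_) (summable_normWeight_prime K hs)
    · split_ifs
      · exact le_rfl
      · exact normWeight_nonneg s 𝔭.asIdeal
    · split_ifs
      · exact normWeight_nonneg s 𝔭.asIdeal
      · exact le_rfl
  refine hsum.tsum_le_of_sum_le fun T ↦ ?_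
  have h1 : ∑ 𝔭 ∈ T, (if (Ideal.absNorm 𝔭.asIdeal).Prime then 0 else normWeight K s 𝔭.asIdeal)
      = ∑ 𝔭 ∈ T.filter (fun 𝔭 ↦ ¬ (Ideal.absNorm 𝔭.asIdeal).Prime),
          normWeight K s 𝔭.asIdeal := by
    rw [Finset.sum_filter]
    refine Finset.sum_congr rfl fun 𝔭 _ ↦ ?_
    by_cases h : (Ideal.absNorm 𝔭.asIdeal).Prime <;> simp [h]
  rw [h1]
  exact sum_not_prime_le K hs.le _ (fun 𝔭 h𝔭 ↦ (Finset.mem_filter.mp h𝔭).2)

variable (K) in
lemma primeSum_eq_add {s : ℝ} (hs : 1 < s) :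
    primeSum K s = (∑' p : Nat.Primes, (idealCount K p : ℝ) * ((p : ℕ) : ℝ) ^ (-s))
      + highSum K s := by
  rw [← tsum_primeNormWeight_eq K hs, tsum_primeNormWeight_eq_tsum_prime K s]
  unfold primeSum highSum
  have hs1 : Summable (fun 𝔭 : HeightOneSpectrum (𝓞 K) ↦ primeNormWeight K s 𝔭.asIdeal) :=
    (summable_primeNormWeight K hs).comp_injective asIdeal_injective
  have hs2 : Summable (fun 𝔭 : HeightOneSpectrum (𝓞 K) ↦
      (if (Ideal.absNorm 𝔭.asIdeal).Prime then 0 else normWeight K s 𝔭.asIdeal)) := by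
    refine Summable.of_nonneg_of_le (fun 𝔭 ↦ ?_) (fun 𝔭 ↦ ?_) (summable_normWeight_prime K hs)
    · split_ifs
      · exact le_rfl
      · exact normWeight_nonneg s 𝔭.asIdeal
    · split_ifs
      · exact normWeight_nonneg s 𝔭.asIdeal
      · exact le_rfl
  rw [← hs1.tsum_add hs2]
  refine tsum_congr fun 𝔭 ↦ ?_
  rw [primeNormWeight_asIdeal]
  by_cases h : (Ideal.absNorm 𝔭.asIdeal).Prime <;> simp [h]

variable (K) in
lemma idealCount_le_finrank {p : ℕ} (hp : p.Prime) : idealCount K p ≤ Module.finrank ℚ K := by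
  classical
  unfold idealCount
  have hfin : Finite {I : Ideal (𝓞 K) // Ideal.absNorm I = p} :=
    Ideal.finite_setOfPred_absNorm_eq p
  letI := Fintype.ofFinite {I : Ideal (𝓞 K) // Ideal.absNorm I = p}
  rw [Nat.card_eq_fintype_card, ← Finset.card_univ]
  have hprime : ∀ I : {I : Ideal (𝓞 K) // Ideal.absNorm I = p}, I.1.IsPrime := fun I ↦
    Ideal.isPrime_of_irreducible_absNorm (Nat.prime_iff.mp (I.2.symm ▸ hp)).irreducible
  have hbot : ∀ I : {I : Ideal (𝓞 K) // Ideal.absNorm I = p}, I.1 ≠ ⊥ := fun I h ↦ by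
    have := I.2
    rw [h, Ideal.absNorm_bot] at this
    exact hp.ne_zero this.symm
  let g : {I : Ideal (𝓞 K) // Ideal.absNorm I = p} → HeightOneSpectrum (𝓞 K) :=
    fun I ↦ ⟨I.1, hprime I, hbot I⟩
  have hg : Function.Injective g := fun I J h ↦ by
    have : (g I).asIdeal = (g J).asIdeal := by rw [h]
    exact Subtype.ext this
  rw [← Finset.card_image_of_injective _ hg]
  refine card_le_finrank_of_natCast_mem hp _ fun 𝔭 h𝔭 ↦ ?_
  obtain ⟨I, _, rfl⟩ := Finset.mem_image.mp h𝔭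
  have := Ideal.absNorm_mem I.1
  rwa [I.2] at this

variable (K) in
/-- **Degree one primes have logarithmic density one**: the Dirichlet coefficients of the
Dedekind zeta function at the primes have logarithmic density `1`. -/
theorem hasLogDensity_idealCount :
    HasLogDensity (fun p : Nat.Primes ↦ (idealCount K p : ℝ)) 1 := by
  refine ⟨⟨(Module.finrank ℚ K : ℝ), fun p ↦ ?_⟩, ?_⟩
  · simp only
    rw [abs_of_nonneg (Nat.cast_nonneg _)]
    exact_mod_cast idealCount_le_finrank K p.2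
  · obtain ⟨C, δ, hδ, hC⟩ := exists_bound_primeSum_sub_log K
    refine ⟨C + (Module.finrank ℚ K : ℝ) * ∑' n : ℕ, ((n : ℝ) ^ 2)⁻¹, δ, hδ,
      fun s hs hsδ ↦ ?_⟩
    have h1 := hC s hs hsδ
    have h2 := primeSum_eq_add K hs
    have h3 := highSum_nonneg K s
    have h4 := highSum_le K hs
    rw [abs_le] at h1 ⊢
    rw [one_mul]
    constructor <;> linarith [h1.1, h1.2]

end Fermat.Agent.FrobDensity
end MergeWrap_Lib_FrobDensity_EulerZeta
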